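import Fermat.Agent.CM.Eleven.LFunction

/-!
# Every curve with multiplication by the ring of integers of `ℚ(√-11)` is modular

These are the curves with `j = -32768`; all coefficients of their L-functions are those of twisted
theta series of weight two, so their L-series are entire.
-/

set_option autoImplicit false

noncomputable section

open WeierstrassCurve CongruenceSubgroup FA.Twists

namespace FA.CM.Eleven

local instance : Fact (Nat.Prime 11) := ⟨prime_eleven_arith⟩

/-- The series as a cusp form. -/
theorem exists_form_of_j_eleven (E : WeierstrassCurve ℚ) [E.IsElliptic] (hj : E.j = -32768) :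
    ∃ (N : ℕ) (f : CuspForm (Gamma0 N) 2), 0 < N ∧
      ∀ n : ℕ, ModularFormClass.qCoeff f n = (E.LFunction n : ℂ) := by
  obtain ⟨e4, e6, eΔ⟩ := curveEleven_invariants
  obtain ⟨x, D, hD, hx, h4, h6⟩ := FA.CM.exists_twist_of_j E curveEleven (by rw [e4]; decide)
    (by rw [e6]; decide) (by rw [hj, e4, eΔ]; norm_num)
  obtain ⟨q, ψ, -, hq, hsq, -, hval⟩ := exists_twistSign_char hD
  have : NeZero q := ⟨hq.ne'⟩
  obtain ⟨N, f, hN, hf⟩ := FA.CM.OddOrder.exists_oddForm 11 (m := 3) ψ hsq
  exact ⟨N, f, hN, fun n => by rw [hf, LFunction_eleven_twist E hD hx h4 h6 ψ hval]⟩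

end FA.CM.Eleven

namespace FA.Summary

open FA.CM.Eleven

/-- **Every curve with multiplication by the ring of integers of `ℚ(√-11)`** is modular: all
coefficients of its L-function are those of a cusp form of weight two. -/
theorem modularity_of_j_eq_neg_32768 (E : WeierstrassCurve ℚ) [E.IsElliptic] (hj : E.j = -32768) :
    ∃ (N : ℕ) (f : CuspForm (Gamma0 N) 2), 0 < N ∧
      ∀ n : ℕ, (UpperHalfPlane.qExpansion 1 f).coeff n = (E.LFunction n : ℂ) :=
  exists_form_of_j_eleven E hj

/-- Its L-series is entire. -/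
theorem entire_continuation_of_j_eq_neg_32768 (E : WeierstrassCurve ℚ) [E.IsElliptic]
    (hj : E.j = -32768) :
    ∃ g : ℂ → ℂ, Differentiable ℂ g ∧ ∀ s : ℂ, 3 / 2 < s.re → E.LSeries s = g s := by
  obtain ⟨N, f, hN, hf⟩ := exists_form_of_j_eleven E hj
  exact FA.CM.exists_entire_of_qCoeff E hN f hf

end FA.Summary

end
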